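import Fermat.Agent.IntegralStructure.HeckeFinite
import Fermat.Agent.HeckeDuality.Eigenform
import Mathlib.LinearAlgebra.LinearIndependent.BaseChange

/-!
# Duality between the weight two Hecke algebra and cusp forms, and ranks
-/

set_option autoImplicit false

noncomputable section

open UpperHalfPlane CongruenceSubgroup CuspForm ModularFormClass Fermat.Agent.HeckeDuality

namespace Fermat.Agent.IntegralStructure

variable {N : ℕ} [NeZero N]

/-- The pairing `(t, f) ↦ a₁(t f)`. -/
def heckePairing (N : ℕ) [NeZero N] :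
    CuspForm (Gamma0 N) 2 →ₗ[ℂ] (heckeAlgebra N 2 ∅ →ₗ[ℤ] ℂ) where
  toFun f :=
    { toFun := fun t => qCoeff ⇑((t : Module.End ℂ (CuspForm (Gamma0 N) 2)) f) 1
      map_add' := fun s t => by rw [← coeff_add]; rfl
      map_smul' := fun c t => by
        rw [RingHom.id_apply, zsmul_eq_mul, zsmul_eq_mul, ← coeff_zsmul, ← zsmul_eq_mul]
        rfl }
  map_add' f g := LinearMap.ext fun t => by
    simp only [LinearMap.coe_mk, AddHom.coe_mk, map_add, coeff_add, LinearMap.add_apply]
  map_smul' c f := LinearMap.ext fun t => by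
    simp only [LinearMap.coe_mk, AddHom.coe_mk, map_smul, coeff_smul, RingHom.id_apply,
      LinearMap.smul_apply, smul_eq_mul]

theorem heckePairing_apply (f : CuspForm (Gamma0 N) 2) (t : heckeAlgebra N 2 ∅) :
    heckePairing N f t = qCoeff ⇑((t : Module.End ℂ (CuspForm (Gamma0 N) 2)) f) 1 := rfl

/-- All coefficients lie in any subgroup containing all the numbers `a₁(t f)`. -/
theorem coeff_mem_of_forall_pairing (H : AddSubgroup ℂ) (f : CuspForm (Gamma0 N) 2)
    (h : ∀ t, heckePairing N f t ∈ H) (n : ℕ) : ∀ (t : heckeAlgebra N 2 ∅),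
      qCoeff ⇑((t : Module.End ℂ (CuspForm (Gamma0 N) 2)) f) n ∈ H := by
  refine heckeRec (P := fun n => ∀ t : heckeAlgebra N 2 ∅, qCoeff ⇑((t : Module.End ℂ (CuspForm (Gamma0 N) 2)) f) n ∈ H)
    (fun t => by rw [coeff_zero]; exact H.zero_mem) h (fun ℓ m hℓ _ hm hd t => ?_) n
  have h2 : qCoeff ⇑((heckeOp N 2 ℓ hℓ).1 ((t : Module.End ℂ (CuspForm (Gamma0 N) 2)) f)) m ∈ H :=
    hm (heckeOp N 2 ℓ hℓ * t)
  rw [coeff_heckeOp hℓ] at h2
  refine (H.add_mem_cancel_right ?_).1 h2
  unfold eulerWeight
  split_ifs with h' hN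
  · simp [H.zero_mem]
  · rw [← nsmul_eq_mul]; exact H.nsmul_mem (hd h' t) ℓ
  · exact H.zero_mem


theorem eq_zero_of_pairing {f : CuspForm (Gamma0 N) 2} (h : ∀ t, heckePairing N f t = 0) :
    f = 0 := by
  refine eq_zero_of_coeff _ fun n => ?_
  simpa using coeff_mem_of_forall_pairing ⊥ f (fun t => by simp [h t]) n 1

theorem heckePairing_injective : Function.Injective (heckePairing N) :=
  (injective_iff_map_eq_zero _).2 fun _ hf => eq_zero_of_pairing fun t => LinearMap.congr_fun hf t

/-- An element of the Hecke algebra is determined by `f ↦ a₁(t f)` on the integral lattice. -/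
theorem eq_zero_of_pairing_lattice {t : heckeAlgebra N 2 ∅}
    (h : ∀ f ∈ intLattice N 2, heckePairing N f t = 0) : t = 0 := by
  refine Subtype.ext (LinearMap.ext_on (hasIntegralStructure N 2) fun f hf => ?_)
  refine eq_zero_of_pairing fun s => ?_
  have h' := h _ (mem_intLattice_of_mem_heckeAlgebra one_le_two s.2 hf)
  rw [heckePairing_apply] at h' ⊢
  rw [← h', ← Module.End.mul_apply, ← Module.End.mul_apply, ← Subalgebra.coe_mul,
    ← Subalgebra.coe_mul, mul_comm s t]

theorem finiteDimensional_cuspForm (N : ℕ) [NeZero N] :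
    FiniteDimensional ℂ (CuspForm (Gamma0 N) 2) :=
  finiteDimensional_of_integralStructure (hasIntegralStructure N 2)

theorem heckeAlgebra_free (N : ℕ) [NeZero N] (k : ℤ) (S : Set ℕ) :
    Module.Free ℤ (heckeAlgebra N k S) := by
  have := heckeAlgebra_finite N k S
  exact Module.free_of_finite_type_torsion_free'

/-- The rank of the lattice of integral forms is at most the dimension of the space of forms. -/
theorem finrank_intLattice_le (N : ℕ) [NeZero N] (k : ℤ) [FiniteDimensional ℂ (CuspForm (Gamma0 N) k)] :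
    Module.finrank ℤ (intLattice N k) ≤ Module.finrank ℂ (CuspForm (Gamma0 N) k) := by
  classical
  have := intLattice_free N k
  have : Module.Finite ℤ ↥(intLattice N k) := Module.Finite.iff_fg.mpr (intLattice_fg N k)
  let b := Module.finBasis ℤ (intLattice N k)
  let B := (k * (Gamma0 N).index).toNat / 12
  have hint : ∀ (f : intLattice N k) (n : ℕ), ∃ m : ℤ, qCoeff ⇑f.1 n = (m : ℂ) :=
    fun f => (HeckeDuality.mem_intLattice_iff f.1).1 f.2
  choose m hm using hint
  let v : Fin (Module.finrank ℤ (intLattice N k)) → Fin (B + 1) → ℤ := fun i n => m (b i) n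
  have hv : LinearIndependent ℤ v := by
    rw [Fintype.linearIndependent_iff]
    intro g hg
    have h0 : ((∑ i, g i • b i : intLattice N k) : CuspForm (Gamma0 N) k) = 0 := by
      refine eq_zero_of_coeffSeq fun n hn => ?_
      have h1 := congrFun hg ⟨n, Nat.lt_succ_of_le hn⟩
      simp only [Finset.sum_apply, Pi.smul_apply, Pi.zero_apply, v, smul_eq_mul] at h1
      have h2 : ((∑ i, g i * m (b i) n : ℤ) : ℂ) = 0 := by rw [h1, Int.cast_zero]
      rw [← h2, AddSubmonoidClass.coe_finsetSum, map_sum, Finset.sum_apply, Int.cast_sum]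
      refine Finset.sum_congr rfl fun i _ => ?_
      rw [Submodule.coe_smul, map_zsmul, Pi.smul_apply, zsmul_eq_mul, Int.cast_mul, ← hm,
        coeffSeq_apply]
    exact Fintype.linearIndependent_iff.1 b.linearIndependent g (Subtype.ext h0)
  have hvC := (linearIndependent_algebraMap_comp_iff (S := ℂ)).2 hv
  let tr : CuspForm (Gamma0 N) k →ₗ[ℂ] Fin (B + 1) → ℂ :=
    LinearMap.funLeft ℂ ℂ (fun i : Fin (B + 1) => (i : ℕ)) ∘ₗ coeffSeq N k
  have hb : LinearIndependent ℂ fun i => ((b i : intLattice N k) : CuspForm (Gamma0 N) k) := by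
    refine LinearIndependent.of_comp tr ?_
    have heq : (tr ∘ fun i => ((b i : intLattice N k) : CuspForm (Gamma0 N) k))
        = fun i => algebraMap ℤ ℂ ∘ v i := by
      funext i n
      simp [tr, v, LinearMap.funLeft_apply, coeffSeq_apply, hm]
    rw [heq]
    exact hvC
  simpa using hb.fintype_card_le_finrank

/-- The rank of the Hecke algebra equals the dimension of the space of forms. -/
theorem finrank_heckeAlgebra (N : ℕ) [NeZero N] :
    Module.finrank ℤ (heckeAlgebra N 2 ∅) = Module.finrank ℂ (CuspForm (Gamma0 N) 2) := by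
  classical
  have := heckeAlgebra_finite N 2 ∅
  have := heckeAlgebra_free N 2 ∅
  have := intLattice_free N 2
  have : Module.Finite ℤ ↥(intLattice N 2) := Module.Finite.iff_fg.mpr (intLattice_fg N 2)
  have := finiteDimensional_cuspForm N
  refine le_antisymm ?_ ?_
  · refine le_trans ?_ (finrank_intLattice_le N 2)
    have hint : ∀ (t : heckeAlgebra N 2 ∅) (f : intLattice N 2),
        ∃ m : ℤ, heckePairing N f.1 t = (m : ℂ) := fun t f =>
      (HeckeDuality.mem_intLattice_iff _).1 (mem_intLattice_of_mem_heckeAlgebra one_le_two t.2 f.2) 1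
    choose m hm using hint
    let P : heckeAlgebra N 2 ∅ →ₗ[ℤ] (intLattice N 2 →ₗ[ℤ] ℤ) :=
      LinearMap.mk₂ ℤ m
        (fun s t f => Int.cast_injective (α := ℂ) (by rw [Int.cast_add, ← hm, ← hm, ← hm, map_add]))
        (fun c t f => Int.cast_injective (α := ℂ) (by
          rw [smul_eq_mul, Int.cast_mul, ← hm, ← hm, map_zsmul, zsmul_eq_mul]))
        (fun t f g => Int.cast_injective (α := ℂ) (by
          rw [Int.cast_add, ← hm, ← hm, ← hm, Submodule.coe_add, map_add, LinearMap.add_apply]))
        (fun c t f => Int.cast_injective (α := ℂ) (by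
          rw [smul_eq_mul, Int.cast_mul, ← hm, ← hm, Submodule.coe_smul, map_zsmul,
            LinearMap.smul_apply, zsmul_eq_mul]))
    have hP : Function.Injective P := (injective_iff_map_eq_zero P).2 fun t ht =>
      eq_zero_of_pairing_lattice fun f hf => by
        rw [show heckePairing N f t = ((P t ⟨f, hf⟩ : ℤ) : ℂ) from hm t ⟨f, hf⟩, ht]
        simp
    refine (LinearMap.finrank_le_finrank_of_injective hP).trans ?_
    rw [Module.finrank_linearMap, Module.finrank_self, mul_one]
  · have : Module.Finite ℂ (heckeAlgebra N 2 ∅ →ₗ[ℤ] ℂ) := Module.Finite.linearMap ℤ ℂ _ ℂ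
    have h1 := LinearMap.finrank_le_finrank_of_injective (heckePairing_injective (N := N))
    have h2 := Module.finrank_linearMap ℤ ℂ (heckeAlgebra N 2 ∅) ℂ
    rw [h2, Module.finrank_self, mul_one] at h1
    exact h1

/-- Every linear functional on the Hecke algebra is `t ↦ a₁(t f)` for a unique form. -/
theorem heckePairing_bijective (N : ℕ) [NeZero N] : Function.Bijective (heckePairing N) := by
  have := heckeAlgebra_finite N 2 ∅
  have := heckeAlgebra_free N 2 ∅
  have := finiteDimensional_cuspForm N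
  have : Module.Finite ℂ (heckeAlgebra N 2 ∅ →ₗ[ℤ] ℂ) := Module.Finite.linearMap ℤ ℂ _ ℂ
  have h2 := Module.finrank_linearMap ℤ ℂ (heckeAlgebra N 2 ∅) ℂ
  rw [Module.finrank_self, mul_one, finrank_heckeAlgebra] at h2
  exact ⟨heckePairing_injective, (LinearMap.injective_iff_surjective_of_finrank_eq_finrank h2.symm).1
    heckePairing_injective⟩

theorem exists_cuspForm_of_functional (φ : heckeAlgebra N 2 ∅ →ₗ[ℤ] ℂ) :
    ∃ f : CuspForm (Gamma0 N) 2, ∀ t, heckePairing N f t = φ t := by
  obtain ⟨f, hf⟩ := (heckePairing_bijective N).2 φ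
  exact ⟨f, fun t => LinearMap.congr_fun hf t⟩

/-- Integral functionals give forms with integral `q`-expansion. -/
theorem mem_intLattice_of_pairing_int {f : CuspForm (Gamma0 N) 2}
    (h : ∀ t, ∃ m : ℤ, heckePairing N f t = (m : ℂ)) : f ∈ intLattice N 2 := by
  refine (HeckeDuality.mem_intLattice_iff f).2 fun n => ?_
  have h' := coeff_mem_of_forall_pairing (Int.castAddHom ℂ).range f
    (fun t => by obtain ⟨m, hm⟩ := h t; exact ⟨m, hm.symm⟩) n 1
  obtain ⟨m, hm⟩ := h'
  refine ⟨m, ?_⟩
  simpa using hm.symm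

end Fermat.Agent.IntegralStructure
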