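import Fermat.Agent.IntegralStructure.Theta
import Fermat.Prelude.Thm_ModularFormClass_isBoundedAt_heckeT
import Fermat.Prelude.Thm_ModularFormClass_isBoundedAt_heckeU

/-!
# Symmetric functions of the conjugates of forms on `Γ₀(N)`
-/

set_option autoImplicit false

noncomputable section

open UpperHalfPlane Function ModularForm Filter CongruenceSubgroup
open scoped Manifold Topology MatrixGroups ModularForm

namespace Fermat.Agent.IntegralStructure

section Algebra

variable {ι R : Type*} [CommRing R]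

/-- The elementary symmetric functions of `-a i`, `i ∈ s`. -/
def negEsymm (a : ι → R) (s : Finset ι) (j : ℕ) : R :=
  ∑ t ∈ s.powersetCard j, ∏ i ∈ t, (-a i)

theorem negEsymm_zero (a : ι → R) (s : Finset ι) : negEsymm a s 0 = 1 := by simp [negEsymm]

theorem prod_sub_eq_sum_negEsymm (a : ι → R) (s : Finset ι) (x : R) :
    ∏ i ∈ s, (x - a i) = ∑ j ∈ Finset.range (s.card + 1), negEsymm a s j * x ^ (s.card - j) := by
  classical
  rw [show ∏ i ∈ s, (x - a i) = ∏ i ∈ s, (-a i + x) by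
    refine Finset.prod_congr rfl fun i _ => ?_; ring]
  rw [Finset.prod_add, Finset.sum_powerset]
  refine Finset.sum_congr rfl fun j _ => ?_
  rw [negEsymm, Finset.sum_mul]
  refine Finset.sum_congr rfl fun t ht => ?_
  rw [Finset.mem_powersetCard] at ht
  rw [Finset.prod_const, Finset.card_sdiff_of_subset ht.1, ht.2]

variable [Fintype ι] [DecidableEq ι]

/-- Coefficients of the Lagrange interpolation polynomial `∑ v i ∏_{l ≠ i} (X - a l)`. -/
def interpCoeff (v a : ι → R) (j : ℕ) : R :=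
  ∑ i, v i * negEsymm a (Finset.univ.erase i) j

theorem sum_interpCoeff_eq (v a : ι → R) (i₀ : ι) :
    ∑ j ∈ Finset.range (Fintype.card ι), interpCoeff v a j * a i₀ ^ (Fintype.card ι - 1 - j)
      = v i₀ * ∏ i ∈ Finset.univ.erase i₀, (a i₀ - a i) := by
  have hcard : ∀ i : ι, (Finset.univ.erase i).card + 1 = Fintype.card ι := by
    intro i
    rw [Finset.card_erase_add_one (Finset.mem_univ i), Finset.card_univ]
  have h1 : ∀ i : ι, ∏ l ∈ Finset.univ.erase i, (a i₀ - a l) =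
      ∑ j ∈ Finset.range (Fintype.card ι),
        negEsymm a (Finset.univ.erase i) j * a i₀ ^ (Fintype.card ι - 1 - j) := by
    intro i
    rw [prod_sub_eq_sum_negEsymm, hcard]
    have : (Finset.univ.erase i).card = Fintype.card ι - 1 := by have := hcard i; omega
    rw [this]
  simp only [interpCoeff, Finset.sum_mul]
  rw [Finset.sum_comm]
  simp only [mul_assoc, ← Finset.mul_sum, ← h1]
  refine Finset.sum_eq_single i₀ (fun i _ hi => ?_) (by simp)
  rw [Finset.prod_eq_zero (i := i₀) (by simp [Ne.symm hi]) (sub_self _), mul_zero]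

omit [DecidableEq ι] in
theorem root_negEsymm (a : ι → R) (i₀ : ι) :
    a i₀ ^ Fintype.card ι + ∑ j ∈ Finset.Icc 1 (Fintype.card ι),
      negEsymm a Finset.univ j * a i₀ ^ (Fintype.card ι - j) = 0 := by
  have h := prod_sub_eq_sum_negEsymm a Finset.univ (a i₀)
  rw [Finset.prod_eq_zero (Finset.mem_univ i₀) (sub_self _), Finset.card_univ] at h
  have hins : Finset.range (Fintype.card ι + 1) = insert 0 (Finset.Icc 1 (Fintype.card ι)) := by
    ext j; simp; omega
  rw [hins, Finset.sum_insert (by simp), negEsymm_zero, one_mul, Nat.sub_zero] at h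
  exact h.symm

end Algebra

theorem prod_slash_SL {ι : Type*} (t : Finset ι) (f : ι → ℍ → ℂ) (w : ℤ) (γ : SL(2, ℤ)) :
    (∏ i ∈ t, f i) ∣[(t.card : ℤ) * w] γ = ∏ i ∈ t, (f i ∣[w] γ) := by
  classical
  induction t using Finset.induction_on with
  | empty => simpa using is_invariant_one γ
  | insert i t hi IH =>
    rw [Finset.prod_insert hi, Finset.prod_insert hi, Finset.card_insert_of_notMem hi,
      show ((t.card + 1 : ℕ) : ℤ) * w = w + (t.card : ℤ) * w by push_cast; ring,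
      mul_slash_SL2, IH]

/-- The cosets indexing the conjugates. -/
abbrev Cosets (N : ℕ) := SL(2, ℤ) ⧸ Gamma0 N

instance (N : ℕ) [NeZero N] : Fintype (Cosets N) := Subgroup.fintypeQuotientOfFiniteIndex

/-- The conjugate attached to a coset. -/
def conjugate (k : ℤ) (N : ℕ) (f : ℍ → ℂ) (c : Cosets N) : ℍ → ℂ := f ∣[k] (c.out)⁻¹

variable {N : ℕ} {k w : ℤ}

theorem conjugate_mk {f : ℍ → ℂ} (hf : ∀ γ ∈ Gamma0 N, f ∣[k] γ = f) (g : SL(2, ℤ)) :
    conjugate k N f (g : Cosets N) = f ∣[k] g⁻¹ := by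
  obtain ⟨h, hh⟩ := QuotientGroup.mk_out_eq_mul (Gamma0 N) g
  rw [conjugate, hh, mul_inv_rev, SlashAction.slash_mul, hf _ (inv_mem h.2)]

theorem conjugate_slash {f : ℍ → ℂ} (hf : ∀ γ ∈ Gamma0 N, f ∣[k] γ = f) (c : Cosets N)
    (γ : SL(2, ℤ)) : conjugate k N f c ∣[k] γ = conjugate k N f (γ⁻¹ • c) := by
  induction c using QuotientGroup.induction_on with
  | H g =>
    rw [conjugate_mk hf, ← SlashAction.slash_mul,
      show γ⁻¹ • (g : Cosets N) = ((γ⁻¹ * g : SL(2, ℤ)) : Cosets N) from rfl, conjugate_mk hf,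
      mul_inv_rev, inv_inv]

theorem conjugate_one {f : ℍ → ℂ} (hf : ∀ γ ∈ Gamma0 N, f ∣[k] γ = f) :
    conjugate k N f ((1 : SL(2, ℤ)) : Cosets N) = f := by
  rw [conjugate_mk hf, inv_one, SlashAction.slash_one]

variable [NeZero N]

omit [NeZero N] in
theorem negEsymm_slash (a : Cosets N → ℍ → ℂ) (γ : SL(2, ℤ))
    (ha : ∀ c, a c ∣[w] γ = a (γ⁻¹ • c)) (s : Finset (Cosets N)) (j : ℕ) :
    negEsymm a s j ∣[(j : ℤ) * w] γ =
      negEsymm a (s.map (MulAction.toPerm γ⁻¹).toEmbedding) j := by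
  rw [negEsymm, negEsymm, SlashAction.sum_slash, Finset.powersetCard_map, Finset.sum_map]
  refine Finset.sum_congr rfl fun t ht => ?_
  rw [← (Finset.mem_powersetCard.1 ht).2, prod_slash_SL]
  show _ = ∏ i ∈ t.map (MulAction.toPerm γ⁻¹).toEmbedding, -a i
  rw [Finset.prod_map]
  refine Finset.prod_congr rfl fun i _ => ?_
  rw [SlashAction.neg_slash, ha]
  rfl

theorem negEsymm_univ_invariant (a : Cosets N → ℍ → ℂ)
    (ha : ∀ (γ : SL(2, ℤ)) c, a c ∣[w] γ = a (γ⁻¹ • c)) (j : ℕ) :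
    IsFullInvariant ((j : ℤ) * w) (negEsymm a Finset.univ j) := by
  intro γ
  rw [negEsymm_slash a γ (ha γ), Finset.map_univ_equiv]

theorem interpCoeff_invariant [DecidableEq (Cosets N)] (v a : Cosets N → ℍ → ℂ)
    (hv : ∀ (γ : SL(2, ℤ)) c, v c ∣[k] γ = v (γ⁻¹ • c))
    (ha : ∀ (γ : SL(2, ℤ)) c, a c ∣[w] γ = a (γ⁻¹ • c)) (j : ℕ) :
    IsFullInvariant (k + (j : ℤ) * w) (interpCoeff v a j) := by
  intro γ
  rw [interpCoeff, SlashAction.sum_slash]
  refine Fintype.sum_equiv (MulAction.toPerm γ⁻¹) _ _ fun i => ?_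
  rw [mul_slash_SL2, hv, negEsymm_slash a γ (ha γ), Finset.map_erase, Finset.map_univ_equiv]
  rfl

/-- Nice functions: holomorphic and bounded at `i∞`. -/
def boundedHol : Subalgebra ℂ (ℍ → ℂ) where
  carrier := {f | MDiff f ∧ IsBoundedAtImInfty f}
  mul_mem' {_f _g} hf hg := ⟨hf.1.mul hg.1, hf.2.mul hg.2⟩
  one_mem' := ⟨mdifferentiable_const, Filter.const_boundedAtFilter _ (1 : ℂ)⟩
  add_mem' {_f _g} hf hg := ⟨hf.1.add hg.1, hf.2.add hg.2⟩
  zero_mem' := ⟨mdifferentiable_const, Filter.const_boundedAtFilter _ (0 : ℂ)⟩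
  algebraMap_mem' c := ⟨mdifferentiable_const, Filter.const_boundedAtFilter _ c⟩

theorem negEsymm_mem_boundedHol {ι : Type*} {a : ι → ℍ → ℂ} (ha : ∀ i, a i ∈ boundedHol)
    (s : Finset ι) (j : ℕ) : negEsymm a s j ∈ boundedHol :=
  sum_mem fun _ _ => prod_mem fun i _ => neg_mem (ha i)

theorem interpCoeff_mem_boundedHol {ι : Type*} [Fintype ι] [DecidableEq ι] {v a : ι → ℍ → ℂ}
    (hv : ∀ i, v i ∈ boundedHol) (ha : ∀ i, a i ∈ boundedHol) (j : ℕ) :
    interpCoeff v a j ∈ boundedHol :=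
  sum_mem fun i _ => mul_mem (hv i) (negEsymm_mem_boundedHol ha _ j)

omit [NeZero N] in
/-- A bounded holomorphic function invariant under the modular group has a `q`-expansion. -/
theorem mem_qFun_of_invariant {f : ℍ → ℂ} (hf : IsFullInvariant k f) (hb : f ∈ boundedHol) :
    f ∈ qFun := by
  let F : SlashInvariantForm 𝒮ℒ k :=
    { toFun := f, slash_action_eq' := fun A hA => by obtain ⟨γ, rfl⟩ := hA; exact hf γ }
  exact ⟨SlashInvariantFormClass.periodic_comp_ofComplex F one_mem_strictPeriods_SL, hb.1, hb.2⟩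

theorem conjugate_theta_mem (c : Cosets N) : conjugate 12 N (thetaFun N) c ∈ boundedHol := by
  refine ⟨(theta N).2.2.1.slash 12 _, ?_⟩
  let E : ModularForm 𝒮ℒ 12 := toLevelOne delta1728 delta1728_mem.1
  have key : thetaFun N = (((N : ℂ) ^ (12 - 1 : ℤ))⁻¹) •
      (heckeT 12 N (⇑E) + (-1 : ℂ) • heckeU 12 N (⇑E)) := by
    funext z
    rw [Pi.smul_apply, Pi.add_apply, Pi.smul_apply, heckeT_eq_heckeU_add, Pi.add_apply,
      slash_heckeDiagMatrix_apply 12 (NeZero.ne N)]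
    have : (N : ℂ) ^ (12 - 1 : ℤ) ≠ 0 := zpow_ne_zero _ (by exact_mod_cast NeZero.ne N)
    simp only [smul_eq_mul]
    field_simp
    simp [thetaFun, E, toLevelOne]
    rw [mul_comm]
    rfl
  have hb : ∀ {g : ℍ → ℂ}, (∀ {c : OnePoint ℝ}, IsCusp c 𝒮ℒ → c.IsBoundedAt g 12) →
      IsBoundedAtImInfty (g ∣[(12 : ℤ)] (c.out)⁻¹) := by
    intro g hg
    rw [← OnePoint.isBoundedAt_infty_iff, SL_slash, ← OnePoint.IsBoundedAt.smul_iff]
    apply hg
    rw [isCusp_SL2Z_iff']
    exact ⟨(c.out)⁻¹, rfl⟩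
  rw [conjugate, key, SL_smul_slash, SlashAction.add_slash, SL_smul_slash]
  exact ((hb fun hc => ModularFormClass.isBoundedAt_heckeT E N hc).add
    ((hb fun hc => ModularFormClass.isBoundedAt_heckeU E N hc).smul _)).smul _

theorem conjugate_theta_ne {c : Cosets N} (hc : c ≠ ((1 : SL(2, ℤ)) : Cosets N)) :
    thetaFun N - conjugate 12 N (thetaFun N) c ≠ 0 := by
  intro h
  apply hc
  have h1 : thetaFun N ∣[(12 : ℤ)] (c.out)⁻¹ = thetaFun N := (sub_eq_zero.1 h).symm
  have h2 := inv_mem (mem_Gamma0_of_slash_thetaFun h1)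
  rw [inv_inv] at h2
  rw [← QuotientGroup.out_eq' c]
  exact QuotientGroup.eq.2 (by simpa using h2)

theorem conjugate_cusp_mem (f : CuspForm (Gamma0 N) k) (c : Cosets N) :
    conjugate k N ⇑f c ∈ boundedHol :=
  ⟨(CuspFormClass.holo f).slash k _,
    ((CuspFormClass.zero_at_infty_slash f (c.out)⁻¹)).boundedAtFilter⟩

omit [NeZero N] in
theorem cuspForm_slash_eq (f : CuspForm (Gamma0 N) k) :
    ∀ γ ∈ Gamma0 N, ⇑f ∣[k] γ = ⇑f :=
  fun γ hγ => SlashInvariantFormClass.slash_action_eq f _ ⟨γ, hγ, rfl⟩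

theorem thetaFun_slash_eq : ∀ γ ∈ Gamma0 N, thetaFun N ∣[(12 : ℤ)] γ = thetaFun N :=
  fun _ hγ => slash_thetaFun_of_mem hγ

end Fermat.Agent.IntegralStructure
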