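import Fermat.Agent.Arith.AlmostIntegral
import Mathlib.RingTheory.PowerSeries.NoZeroDivisors
import Mathlib.RingTheory.IntegralClosure.IsIntegral.Basic
import Mathlib.RingTheory.Polynomial.Basic
import Mathlib.Data.Complex.Basic
import Mathlib.LinearAlgebra.FreeModule.Basic
import Mathlib.LinearAlgebra.Basis.VectorSpace
import Mathlib.Algebra.Algebra.Rat

/-!
# Formal power series with rational coefficients and bounded denominators

A rational power series which is integral over the series with bounded denominators and which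
is a quotient of two such series has bounded denominators.
-/

set_option autoImplicit false

noncomputable section

namespace Fermat.Agent.IntegralStructure

/-- The power series over a commutative ring with integer coefficients. -/
def intSeries (R : Type*) [CommRing R] : Subring (PowerSeries R) :=
  (PowerSeries.map (Int.castRingHom R)).range

theorem mem_intSeries_iff {R : Type*} [CommRing R] {x : PowerSeries R} :
    x ∈ intSeries R ↔ ∀ i, ∃ m : ℤ, x.coeff i = (m : R) := by
  constructor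
  · rintro ⟨z, rfl⟩ i
    exact ⟨z.coeff i, by simp⟩
  · intro h
    choose m hm using h
    exact ⟨PowerSeries.mk m, by ext i; simp [hm]⟩

theorem isInt_of_forall_mul_pow {a : ℤ} (ha : a ≠ 0) {r : ℚ}
    (h : ∀ m : ℕ, ∃ z : ℤ, (a : ℚ) * r ^ m = z) : ∃ z : ℤ, r = z := by
  have hd : ∀ m : ℕ, (r.den : ℤ) ^ m ∣ a := by
    intro m
    obtain ⟨z, hz⟩ := h m
    have h1 : a * r.num ^ m = z * (r.den : ℤ) ^ m := by
      have : (a : ℚ) * (r.num : ℚ) ^ m = (z : ℚ) * (r.den : ℚ) ^ m := by
        rw [← hz, ← r.mul_den_eq_num, mul_pow]; ring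
      exact_mod_cast this
    have hc : IsCoprime ((r.den : ℤ) ^ m) (r.num ^ m) :=
      (r.isCoprime_num_den.symm).pow
    exact hc.dvd_of_dvd_mul_right (h1 ▸ Dvd.intro_left z rfl)
  have h1 : r.den = 1 := by
    by_contra hne
    have h2 : 2 ≤ r.den := by
      have := r.den_pos; omega
    have h3 := Int.le_of_dvd (by positivity) ((hd a.natAbs).trans (dvd_abs a a |>.2 dvd_rfl))
    have h4 : (a.natAbs : ℤ) < (r.den : ℤ) ^ a.natAbs := by
      have : a.natAbs < r.den ^ a.natAbs :=
        Nat.lt_pow_self (by omega)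
      exact_mod_cast this
    rw [Int.abs_eq_natAbs] at h3
    omega
  exact ⟨r.num, (Rat.den_eq_one_iff r).1 h1 |>.symm⟩

/-- `ℤ⟦q⟧` is completely integrally closed in `ℚ⟦q⟧` (almost integral elements are integral). -/
theorem mem_intSeries_of_almost_integral {A h : PowerSeries ℚ}
    (hA0 : A ≠ 0) (hh : ∀ m : ℕ, A * h ^ m ∈ intSeries ℚ) : h ∈ intSeries ℚ := by
  have h1 : ∀ {r : ℚ}, r ∈ (Int.castRingHom ℚ).range ↔ ∃ z : ℤ, r = z := fun {r} =>
    ⟨fun ⟨z, hz⟩ => ⟨z, hz.symm⟩, fun ⟨z, hz⟩ => ⟨z, hz.symm⟩⟩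
  refine mem_intSeries_iff.2 fun i => h1.1 (Arith.powerSeries_coeff_mem_of_almostIntegral
    (R := (Int.castRingHom ℚ).range) (fun c a hc hpow => ?_) hA0
    (fun m j => h1.2 (mem_intSeries_iff.1 (hh m) j)) i)
  obtain ⟨z, rfl⟩ := h1.1 (show c ∈ (Int.castRingHom ℚ).range by simpa using hpow 0)
  exact h1.2 (isInt_of_forall_mul_pow (Int.cast_ne_zero.1 hc) fun m => h1.1 (hpow m))

/-- An element integral over `ℤ⟦q⟧` which is a quotient of elements of `ℤ⟦q⟧` is in `ℤ⟦q⟧`. -/
theorem mem_intSeries_of_isIntegral {A h : PowerSeries ℚ} (hA : A ∈ intSeries ℚ)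
    (hA0 : A ≠ 0) (hAh : h * A ∈ intSeries ℚ) {P : Polynomial (intSeries ℚ)} (hP : P.Monic)
    (hPh : Polynomial.aeval h P = 0) : h ∈ intSeries ℚ := by
  refine mem_intSeries_of_almost_integral (A := A ^ P.natDegree)
    (pow_ne_zero _ hA0) fun m => ?_
  have hred : h ^ m = Polynomial.aeval h ((Polynomial.X ^ m) %ₘ P) := by
    conv_lhs => rw [← Polynomial.aeval_X_pow (R := intSeries ℚ) h,
      ← Polynomial.modByMonic_add_div (Polynomial.X ^ m) P]
    simp [hPh]
  rw [hred, Polynomial.aeval_eq_sum_range, Finset.mul_sum]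
  refine sum_mem fun i hi => ?_
  rw [Finset.mem_range, Nat.lt_succ_iff] at hi
  have hle : i ≤ P.natDegree := hi.trans
    (Polynomial.natDegree_modByMonic_le _ hP)
  obtain ⟨e, he⟩ := Nat.exists_eq_add_of_le hle
  rw [Subring.smul_def, smul_eq_mul, he, pow_add,
    show ∀ c : PowerSeries ℚ, A ^ i * A ^ e * (c * h ^ i) = c * A ^ e * (h * A) ^ i by
      intro c; ring]
  exact mul_mem (mul_mem (SetLike.coe_mem _) (pow_mem hA _)) (pow_mem hAh _)

/-- The series with bounded denominators. -/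
def boundedDen : Submodule ℚ (PowerSeries ℚ) :=
  Submodule.span ℚ (intSeries ℚ : Set (PowerSeries ℚ))

theorem exists_nsmul_mem_intSeries {x : PowerSeries ℚ} (hx : x ∈ boundedDen) :
    ∃ D : ℕ, D ≠ 0 ∧ D • x ∈ intSeries ℚ := by
  induction hx using Submodule.span_induction with
  | mem y hy => exact ⟨1, one_ne_zero, by simpa using hy⟩
  | zero => exact ⟨1, one_ne_zero, by simp⟩
  | add y z _ _ hy hz =>
    obtain ⟨D, hD, hy⟩ := hy
    obtain ⟨E, hE, hz⟩ := hz
    refine ⟨D * E, mul_ne_zero hD hE, ?_⟩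
    rw [smul_add]
    refine add_mem ?_ ?_
    · rw [mul_comm, mul_nsmul']; exact nsmul_mem hy E
    · rw [mul_nsmul']; exact nsmul_mem hz D
  | smul c y _ hy =>
    obtain ⟨D, hD, hy⟩ := hy
    refine ⟨c.den * D, mul_ne_zero c.den_nz hD, ?_⟩
    have : (c.den * D) • c • y = c.num • (D • y) := by
      ext i
      simp only [map_nsmul, map_zsmul, PowerSeries.coeff_smul]
      simp only [nsmul_eq_mul, zsmul_eq_mul, smul_eq_mul, Nat.cast_mul]
      rw [← c.mul_den_eq_num]
      ring
    rw [this]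
    exact zsmul_mem hy _

/-- Bounded denominators for a root of a monic equation which is also a quotient. -/
theorem mem_boundedDen_of_root {h A B : PowerSeries ℚ} {n : ℕ} {p : ℕ → PowerSeries ℚ}
    (hA : A ∈ boundedDen) (hA0 : A ≠ 0) (hB : B ∈ boundedDen) (hAB : h * A = B)
    (hp : ∀ j ∈ Finset.Icc 1 n, p j ∈ boundedDen)
    (heq : h ^ n + ∑ j ∈ Finset.Icc 1 n, p j * h ^ (n - j) = 0) :
    h ∈ boundedDen := by
  obtain ⟨DA, hDA, hA'⟩ := exists_nsmul_mem_intSeries hA
  obtain ⟨DB, hDB, hB'⟩ := exists_nsmul_mem_intSeries hB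
  choose! Dp hDp hp' using fun j hj => exists_nsmul_mem_intSeries (hp j hj)
  let D := ∏ j ∈ Finset.Icc 1 n, Dp j
  have hD : D ≠ 0 := Finset.prod_ne_zero_iff.2 hDp
  let M := D * DB
  have hM : M ≠ 0 := mul_ne_zero hD hDB
  have hpM : ∀ j, ∃ c : intSeries ℚ, j ∈ Finset.Icc 1 n →
      (c : PowerSeries ℚ) = (M : PowerSeries ℚ) ^ j * p j := by
    intro j
    by_cases hj : j ∈ Finset.Icc 1 n
    · refine ⟨⟨(M : PowerSeries ℚ) ^ j * p j, ?_⟩, fun _ => rfl⟩
      obtain ⟨e, he⟩ : Dp j ∣ M ^ j :=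
        ((Finset.dvd_prod_of_mem _ hj).trans (dvd_mul_right D DB)).trans
          (dvd_pow_self _ (by simp at hj; omega))
      rw [← Nat.cast_pow, he, Nat.cast_mul,
        show (Dp j : PowerSeries ℚ) * e * p j = (e : PowerSeries ℚ) * (Dp j • p j) by
          rw [nsmul_eq_mul]; ring]
      exact mul_mem (natCast_mem _ _) (hp' j hj)
    · exact ⟨0, fun h' => absurd h' hj⟩
  choose c hc using hpM
  have key : M • h ∈ intSeries ℚ := by
    refine mem_intSeries_of_isIntegral (A := DA • A) hA' ?_ ?_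
      (P := Polynomial.X ^ n + ∑ j ∈ Finset.Icc 1 n, Polynomial.C (c j) * Polynomial.X ^ (n - j))
      ?_ ?_
    · intro h0
      rw [nsmul_eq_mul] at h0
      refine hA0 ((mul_eq_zero.1 h0).resolve_left fun h1 => hDA ?_)
      have := congrArg PowerSeries.constantCoeff h1
      simpa using this
    · have : (M • h) * (DA • A) = ((D * DA : ℕ) : PowerSeries ℚ) * (DB • B) := by
        simp only [M, nsmul_eq_mul, Nat.cast_mul, ← hAB]; ring
      rw [this]
      exact mul_mem (natCast_mem _ _) hB'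
    · refine Polynomial.monic_X_pow_add ((Polynomial.degree_sum_le _ _).trans_lt ?_)
      refine (Finset.sup_lt_iff (WithBot.bot_lt_coe n)).2 ?_
      intro j hj
      refine (Polynomial.degree_C_mul_X_pow_le _ _).trans_lt ?_
      simp at hj
      exact Nat.cast_lt.2 (show n - j < n by omega)
    · simp only [map_add, map_pow, Polynomial.aeval_X, map_sum, map_mul, Polynomial.aeval_C]
      calc (M • h) ^ n + ∑ j ∈ Finset.Icc 1 n,
            algebraMap (intSeries ℚ) (PowerSeries ℚ) (c j) * (M • h) ^ (n - j)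
          = (M : PowerSeries ℚ) ^ n * (h ^ n + ∑ j ∈ Finset.Icc 1 n, p j * h ^ (n - j)) := by
            simp only [nsmul_eq_mul, mul_pow, mul_add, Finset.mul_sum]
            congr 1
            refine Finset.sum_congr rfl fun j hj => ?_
            rw [show algebraMap (intSeries ℚ) (PowerSeries ℚ) (c j) = (c j : PowerSeries ℚ) from rfl,
              hc j hj]
            have hle : j ≤ n := (Finset.mem_Icc.1 hj).2
            have : (M : PowerSeries ℚ) ^ n = (M : PowerSeries ℚ) ^ j * (M : PowerSeries ℚ) ^ (n - j) := by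
              rw [← pow_add, Nat.add_sub_cancel' hle]
            rw [this]
            ring
        _ = 0 := by rw [heq, mul_zero]
  have : h = (M : ℚ)⁻¹ • (M • h) := by
    rw [← Nat.cast_smul_eq_nsmul ℚ M h, inv_smul_smul₀ (by exact_mod_cast hM)]
  rw [this]
  exact Submodule.smul_mem _ _ (Submodule.subset_span key)

/-- The `ℂ`-span of the integral power series. -/
def intSpan : Submodule ℂ (PowerSeries ℂ) :=
  Submodule.span ℂ (intSeries ℂ : Set (PowerSeries ℂ))

theorem mul_mem_intSpan {x y : PowerSeries ℂ} (hx : x ∈ intSpan) (hy : y ∈ intSpan) :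
    x * y ∈ intSpan := by
  induction hx using Submodule.span_induction with
  | mem a ha =>
    induction hy using Submodule.span_induction with
    | mem b hb => exact Submodule.subset_span (mul_mem (s := intSeries ℂ) ha hb)
    | zero => simp
    | add b c _ _ hb hc => rw [mul_add]; exact add_mem hb hc
    | smul r b _ hb => rw [mul_smul_comm]; exact Submodule.smul_mem _ _ hb
  | zero => simp
  | add b c _ _ hb hc => rw [add_mul]; exact add_mem hb hc
  | smul r b _ hb => rw [smul_mul_assoc]; exact Submodule.smul_mem _ _ hb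

/-- Coefficientwise application of a `ℚ`-linear functional. -/
def ratProj (π : ℂ →ₗ[ℚ] ℚ) : PowerSeries ℂ →+ PowerSeries ℚ where
  toFun x := PowerSeries.mk fun i => π (x.coeff i)
  map_zero' := by ext i; simp
  map_add' x y := by ext i; simp

@[simp] theorem coeff_ratProj (π : ℂ →ₗ[ℚ] ℚ) (x : PowerSeries ℂ) (i : ℕ) :
    (ratProj π x).coeff i = π (x.coeff i) := by
  simp [ratProj]

theorem ratProj_map_mul (π : ℂ →ₗ[ℚ] ℚ) (c : PowerSeries ℚ) (x : PowerSeries ℂ) :
    ratProj π (PowerSeries.map (Rat.castHom ℂ) c * x) = c * ratProj π x := by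
  ext i
  simp only [coeff_ratProj, PowerSeries.coeff_mul, map_sum, PowerSeries.coeff_map]
  refine Finset.sum_congr rfl fun p _ => ?_
  rw [show (Rat.castHom ℂ) (c.coeff p.1) * x.coeff p.2 = (c.coeff p.1) • x.coeff p.2 from
    (Rat.smul_def _ _).symm, map_smul, smul_eq_mul]

theorem ratProj_mem_boundedDen (π : ℂ →ₗ[ℚ] ℚ) {x : PowerSeries ℂ} (hx : x ∈ intSpan) :
    ratProj π x ∈ boundedDen := by
  obtain ⟨f, t, ht, -, rfl⟩ := Submodule.mem_span_iff_exists_finset_subset.1 hx
  rw [map_sum]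
  refine sum_mem fun a ha => ?_
  obtain ⟨z, rfl⟩ := ht ha
  have : ratProj π (f (PowerSeries.map (Int.castRingHom ℂ) z) •
        PowerSeries.map (Int.castRingHom ℂ) z)
      = π (f (PowerSeries.map (Int.castRingHom ℂ) z)) • PowerSeries.map (Int.castRingHom ℚ) z := by
    ext i
    simp only [coeff_ratProj, PowerSeries.coeff_smul, PowerSeries.coeff_map, eq_intCast,
      smul_eq_mul]
    rw [mul_comm (f _), ← zsmul_eq_mul, map_zsmul, zsmul_eq_mul, mul_comm]
  rw [this]
  exact Submodule.smul_mem _ _ (Submodule.subset_span ⟨z, rfl⟩)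

/-- Bounded denominators for a complex series with rational coefficients. -/
theorem exists_nsmul_mem_intSeries_of_root {F A B : PowerSeries ℂ} {n : ℕ}
    {p : ℕ → PowerSeries ℂ}
    (hF : ∀ i, ∃ r : ℚ, F.coeff i = (r : ℂ))
    (hA : A ∈ intSpan) (hA0 : A ≠ 0) (hB : B ∈ intSpan) (hAB : F * A = B)
    (hp : ∀ j ∈ Finset.Icc 1 n, p j ∈ intSpan)
    (heq : F ^ n + ∑ j ∈ Finset.Icc 1 n, p j * F ^ (n - j) = 0) :
    ∃ D : ℕ, D ≠ 0 ∧ D • F ∈ intSeries ℂ := by
  choose r hr using hF
  let h : PowerSeries ℚ := PowerSeries.mk r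
  have hF' : F = PowerSeries.map (Rat.castHom ℂ) h := by
    ext i; simp [h, hr]
  obtain ⟨i, hi⟩ : ∃ i, A.coeff i ≠ 0 := by
    by_contra hc; push Not at hc; exact hA0 (PowerSeries.ext (by simpa using hc))
  obtain ⟨π, hπ⟩ := Module.Projective.exists_dual_ne_zero ℚ hi
  obtain ⟨π₁, hπ₁⟩ := Module.Projective.exists_dual_ne_zero ℚ (one_ne_zero (α := ℂ))
  let π₀ : ℂ →ₗ[ℚ] ℚ := (π₁ 1)⁻¹ • π₁
  have hπ₀ : π₀ 1 = 1 := by simp [π₀, inv_mul_cancel₀ hπ₁]
  have hone : ratProj π₀ 1 = 1 := by
    ext j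
    by_cases hj : j = 0 <;> simp [hj, hπ₀, PowerSeries.coeff_one]
  have hpow : ∀ (m : ℕ) (x : PowerSeries ℂ), ratProj π₀ (x * F ^ m) = ratProj π₀ x * h ^ m := by
    intro m x
    rw [hF', ← map_pow, mul_comm, ratProj_map_mul, mul_comm]
  have key : h ∈ boundedDen := by
    refine mem_boundedDen_of_root (A := ratProj π A) (B := ratProj π B) (n := n)
      (p := fun j => ratProj π₀ (p j)) (ratProj_mem_boundedDen _ hA) ?_
      (ratProj_mem_boundedDen _ hB) ?_ (fun j hj => ratProj_mem_boundedDen _ (hp j hj)) ?_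
    · intro h0
      exact hπ (by simpa using congrArg (fun x => PowerSeries.coeff i x) h0)
    · rw [← hAB, hF', ratProj_map_mul]
    · have h1 : ratProj π₀ (1 * F ^ n) = h ^ n := by rw [hpow, hone, one_mul]
      rw [one_mul] at h1
      simp only [← hpow]
      rw [← h1, ← map_sum, ← map_add, heq, map_zero]
  obtain ⟨D, hD, hD'⟩ := exists_nsmul_mem_intSeries key
  refine ⟨D, hD, ?_⟩
  obtain ⟨z, hz⟩ := hD'
  refine ⟨z, ?_⟩
  rw [hF', ← map_nsmul, ← hz]
  ext j
  simp

end Fermat.Agent.IntegralStructure
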