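import Mathlib.NumberTheory.ModularForms.QExpansion
import Mathlib.NumberTheory.ModularForms.CongruenceSubgroups
import Mathlib.NumberTheory.ModularForms.LevelOne.GradedRing
import Fermat.Prelude.Thm_CongruenceSubgroup_one_mem_strictPeriods_Gamma0

/-!
# The algebra of one-periodic holomorphic functions bounded at infinity, and `qExpansion` on it
-/

set_option autoImplicit false

noncomputable section

open UpperHalfPlane Function
open scoped Manifold Topology MatrixGroups ModularForm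

namespace Fermat.Agent.IntegralStructure

/-- The functions on `ℍ` having a `q`-expansion in `q = exp(2πiτ)`. -/
def qFun : Subalgebra ℂ (ℍ → ℂ) where
  carrier := {f | Periodic (f ∘ ofComplex) 1 ∧ MDiff f ∧ IsBoundedAtImInfty f}
  mul_mem' {_f _g} hf hg := ⟨hf.1.mul hg.1, hf.2.1.mul hg.2.1, hf.2.2.mul hg.2.2⟩
  one_mem' := ⟨fun _ => rfl, mdifferentiable_const,
    Filter.const_boundedAtFilter _ (1 : ℂ)⟩
  add_mem' {_f _g} hf hg := ⟨hf.1.add hg.1, hf.2.1.add hg.2.1, hf.2.2.add hg.2.2⟩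
  zero_mem' := ⟨fun _ => rfl, mdifferentiable_const, Filter.const_boundedAtFilter _ (0 : ℂ)⟩
  algebraMap_mem' c := ⟨fun _ => rfl, mdifferentiable_const,
    Filter.const_boundedAtFilter _ c⟩

theorem qFun_analyticAt (f : qFun) : AnalyticAt ℂ (cuspFunction 1 (f : ℍ → ℂ)) 0 :=
  analyticAt_cuspFunction_zero one_pos f.2.1 f.2.2.1 f.2.2.2

/-- `qExpansion 1` as an algebra homomorphism. -/
def qHom : qFun →ₐ[ℂ] PowerSeries ℂ where
  toFun f := qExpansion 1 (f : ℍ → ℂ)
  map_one' := qExpansion_one 1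
  map_mul' f g := qExpansion_mul (qFun_analyticAt f) (qFun_analyticAt g)
  map_zero' := qExpansion_zero 1
  map_add' f g := qExpansion_add (qFun_analyticAt f) (qFun_analyticAt g)
  commutes' c := by
    show qExpansion 1 ((algebraMap ℂ qFun c : qFun) : ℍ → ℂ) = algebraMap ℂ _ c
    rw [Algebra.algebraMap_eq_smul_one, Algebra.algebraMap_eq_smul_one,
      SetLike.val_smul, qExpansion_smul (qFun_analyticAt (1 : qFun))]
    congr 1
    exact qExpansion_one 1

theorem qHom_apply (f : qFun) : qHom f = qExpansion 1 (f : ℍ → ℂ) := rfl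

theorem qHom_eq_zero_iff (f : qFun) : qHom f = 0 ↔ f = 0 := by
  rw [qHom_apply, qExpansion_eq_zero_iff one_pos f.2.1 f.2.2.1 f.2.2.2, Subtype.ext_iff]
  rfl

theorem qHom_injective : Function.Injective qHom :=
  (injective_iff_map_eq_zero qHom).2 fun f => (qHom_eq_zero_iff f).1

theorem tendsto_coeff_zero_of_mem_qFun (f : qFun) :
    Filter.Tendsto (f : ℍ → ℂ) atImInfty (𝓝 ((qHom f).coeff 0)) := by
  rw [qHom_apply, qExpansion_coeff, Nat.factorial_zero, Nat.cast_one, inv_one, one_mul,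
    iteratedDeriv_zero]
  have h := (qFun_analyticAt f).continuousAt.tendsto.comp (qParam_tendsto_atImInfty one_pos)
  refine h.congr fun τ => ?_
  exact eq_cuspFunction τ one_ne_zero f.2.1

theorem mem_qFun_of_modularFormClass {F : Type*} [FunLike F ℍ ℂ]
    {Γ : Subgroup (GL (Fin 2) ℝ)} {k : ℤ} [ModularFormClass F Γ k] (hΓ : (1 : ℝ) ∈ Γ.strictPeriods)
    (f : F) : (⇑f : ℍ → ℂ) ∈ qFun :=
  have : Fact (IsCusp OnePoint.infty Γ) := ⟨Γ.isCusp_of_mem_strictPeriods one_pos hΓ⟩
  ⟨SlashInvariantFormClass.periodic_comp_ofComplex f hΓ, ModularFormClass.holo f,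
    ModularFormClass.bdd_at_infty f⟩

/-- A level one form, as an element of `qFun`. -/
def ofLevelOne {k : ℤ} (c : ModularForm 𝒮ℒ k) : qFun :=
  ⟨⇑c, mem_qFun_of_modularFormClass one_mem_strictPeriods_SL c⟩

/-- A form on `Γ₀(N)`, as an element of `qFun`. -/
def ofGamma0 {N : ℕ} {k : ℤ} (f : CuspForm (CongruenceSubgroup.Gamma0 N) k) : qFun :=
  ⟨⇑f, mem_qFun_of_modularFormClass (CongruenceSubgroup.one_mem_strictPeriods_Gamma0 N) f⟩

@[simp] theorem coe_ofLevelOne {k : ℤ} (c : ModularForm 𝒮ℒ k) : (ofLevelOne c : ℍ → ℂ) = ⇑c := rfl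

@[simp] theorem coe_ofGamma0 {N : ℕ} {k : ℤ} (f : CuspForm (CongruenceSubgroup.Gamma0 N) k) :
    (ofGamma0 f : ℍ → ℂ) = ⇑f := rfl

end Fermat.Agent.IntegralStructure
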