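import Fermat.Agent.IntegralStructure.LevelOne
import Fermat.Prelude.Def_ModularForm_HeckeOperator

/-!
# A form of weight twelve on `Γ₀(N)` with integral coefficients and trivial stabiliser
-/

set_option autoImplicit false

noncomputable section

open UpperHalfPlane Function ModularForm Filter CongruenceSubgroup
open scoped Manifold Topology MatrixGroups ModularForm Real

namespace Fermat.Agent.IntegralStructure

/-- `1728 Δ(Nτ)` as a function. -/
def thetaFun (N : ℕ) (z : ℍ) : ℂ := (delta1728 : ℍ → ℂ) (heckeDiagMatrix N • z)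

theorem delta1728_smul (γ : SL(2, ℤ)) (w : ℍ) :
    (delta1728 : ℍ → ℂ) (γ • w) =
      ((γ 1 0 : ℂ) * w + (γ 1 1 : ℂ)) ^ (12 : ℤ) * (delta1728 : ℍ → ℂ) w :=
  (slash_action_eq'_iff 12 _ γ w).1 (congrFun (delta1728_mem.1 γ) w)

theorem slash_thetaFun_of_mem {N : ℕ} [NeZero N] {γ : SL(2, ℤ)} (hγ : γ ∈ Gamma0 N) :
    thetaFun N ∣[(12 : ℤ)] γ = thetaFun N := by
  funext z
  rw [slash_action_eq'_iff]
  obtain ⟨e, he⟩ : (N : ℤ) ∣ γ 1 0 :=
    (ZMod.intCast_zmod_eq_zero_iff_dvd _ _).1 (Gamma0_mem.1 hγ)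
  have hdet : γ 0 0 * γ 1 1 - γ 0 1 * γ 1 0 = 1 := by
    rw [← Matrix.det_fin_two]; exact γ.2
  let γ' : SL(2, ℤ) := ⟨!![γ 0 0, N * γ 0 1; e, γ 1 1], by
    rw [Matrix.det_fin_two_of]; linear_combination hdet + γ 0 1 * he⟩
  have hN : N ≠ 0 := NeZero.ne N
  have hpt : heckeDiagMatrix N • (γ • z) = γ' • (heckeDiagMatrix N • z) := by
    apply UpperHalfPlane.ext
    rw [coe_heckeDiagMatrix_smul hN, coe_specialLinearGroup_apply, coe_specialLinearGroup_apply,
      coe_heckeDiagMatrix_smul hN]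
    simp only [γ', algebraMap_int_eq, eq_intCast]
    simp [he]
    ring
  show (delta1728 : ℍ → ℂ) (heckeDiagMatrix N • (γ • z)) = _
  rw [hpt, delta1728_smul]
  congr 2
  rw [coe_heckeDiagMatrix_smul hN]
  simp [γ', he]
  ring

theorem periodic_thetaFun (N : ℕ) [NeZero N] : Periodic (thetaFun N ∘ ofComplex) 1 := by
  intro w
  by_cases hw : 0 < w.im
  · have hw' : 0 < (w + 1).im := by simpa using hw
    simp only [comp_apply, ofComplex_apply_of_im_pos hw, ofComplex_apply_of_im_pos hw', thetaFun]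
    have h1 := (Periodic.nat_mul delta1728.2.1 N) ((N : ℂ) * w)
    simp only [comp_apply, mul_one] at h1
    have e1 : heckeDiagMatrix N • (⟨w + 1, hw'⟩ : ℍ) = ofComplex ((N : ℂ) * w + N) := by
      rw [← ofComplex_apply (heckeDiagMatrix N • (⟨w + 1, hw'⟩ : ℍ)),
        coe_heckeDiagMatrix_smul (NeZero.ne N), UpperHalfPlane.coe_mk, mul_add, mul_one]
    have e2 : heckeDiagMatrix N • (⟨w, hw⟩ : ℍ) = ofComplex ((N : ℂ) * w) := by
      rw [← ofComplex_apply (heckeDiagMatrix N • (⟨w, hw⟩ : ℍ)),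
        coe_heckeDiagMatrix_smul (NeZero.ne N), UpperHalfPlane.coe_mk]
    rw [e1, e2]
    exact h1
  · have hw' : ¬ 0 < (w + 1).im := by simpa using hw
    simp only [comp_apply, ofComplex_apply_of_im_nonpos (not_lt.1 hw),
      ofComplex_apply_of_im_nonpos (not_lt.1 hw')]

theorem im_heckeDiagMatrix_smul (N : ℕ) [NeZero N] (z : ℍ) :
    (heckeDiagMatrix N • z).im = N * z.im := by
  rw [← UpperHalfPlane.coe_im, coe_heckeDiagMatrix_smul (NeZero.ne N)]
  simp

theorem tendsto_heckeDiagMatrix_atImInfty (N : ℕ) [NeZero N] :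
    Tendsto (fun z : ℍ => heckeDiagMatrix N • z) atImInfty atImInfty := by
  refine tendsto_comap_iff.2 ?_
  refine (tendsto_comap.const_mul_atTop (r := (N : ℝ)) ?_).congr fun z => ?_
  · exact_mod_cast Nat.pos_of_ne_zero (NeZero.ne N)
  · exact (im_heckeDiagMatrix_smul N z).symm

/-- `1728 Δ(Nτ)`. -/
def theta (N : ℕ) [NeZero N] : qFun :=
  ⟨thetaFun N, periodic_thetaFun N,
    delta1728.2.2.1.comp (mdifferentiable_smul (det_heckeDiagMatrix_pos N)),
    delta1728.2.2.2.comp_tendsto (tendsto_heckeDiagMatrix_atImInfty N)⟩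

@[simp] theorem coe_theta (N : ℕ) [NeZero N] : (theta N : ℍ → ℂ) = thetaFun N := rfl

theorem hasSum_comp_heckeDiag (x : qFun) (m : ℕ → ℂ) (hm : ∀ j, (qHom x).coeff j = m j)
    (N : ℕ) [NeZero N] (τ : ℍ) :
    HasSum (fun n => (if N ∣ n then m (n / N) else 0) • Periodic.qParam (1 : ℝ) τ ^ n)
      ((x : ℍ → ℂ) (heckeDiagMatrix N • τ)) := by
  have hN : N ≠ 0 := NeZero.ne N
  have h := hasSum_qExpansion one_pos x.2.1 x.2.2.1 x.2.2.2 (heckeDiagMatrix N • τ)
  rw [← (mul_right_injective₀ hN).hasSum_iff]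
  · refine h.congr_fun fun j => ?_
    have e : (qExpansion 1 (x : ℍ → ℂ)).coeff j = m j := hm j
    have e' : Periodic.qParam (1 : ℝ) ((heckeDiagMatrix N • τ : ℍ) : ℂ)
        = Periodic.qParam (1 : ℝ) (τ : ℂ) ^ N := by
      rw [coe_heckeDiagMatrix_smul hN]
      simp only [Periodic.qParam, Complex.ofReal_one, div_one, ← Complex.exp_nat_mul]
      congr 1
      ring
    rw [comp_apply, e, e', ← pow_mul]
    simp [Nat.mul_div_cancel_left _ (Nat.pos_of_ne_zero hN)]
  · intro n hn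
    have : ¬ N ∣ n := fun ⟨j, hj⟩ => hn ⟨j, hj.symm⟩
    simp [this]

theorem qHom_coeff_eq_of_hasSum (x : qFun) {c : ℕ → ℂ}
    (hc : ∀ τ : ℍ, HasSum (fun n => c n • Periodic.qParam (1 : ℝ) τ ^ n) ((x : ℍ → ℂ) τ)) (n : ℕ) :
    (qHom x).coeff n = c n := by
  have h1 := (hasFPowerSeriesOnBall_cuspFunction one_pos (qFun_analyticAt x) hc).hasFPowerSeriesAt
  have h2 := (hasFPowerSeriesOnBall_cuspFunction one_pos (qFun_analyticAt x)
    (hasSum_qExpansion one_pos x.2.1 x.2.2.1 x.2.2.2)).hasFPowerSeriesAt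
  simpa [qHom_apply] using congr_arg (FormalMultilinearSeries.coeff · n)
    (h2.eq_formalMultilinearSeries h1)

theorem qHom_theta_mem (N : ℕ) [NeZero N] : qHom (theta N) ∈ intSeries ℂ := by
  obtain ⟨z, hz⟩ : qHom delta1728 ∈ intSeries ℂ := delta1728_mem.2
  rw [mem_intSeries_iff]
  intro n
  have hm : ∀ j, (qHom delta1728).coeff j = (z.coeff j : ℂ) := by
    intro j; rw [← hz]; simp
  have hc : ∀ τ : ℍ, HasSum
      (fun n => (if N ∣ n then ((z.coeff (n / N) : ℤ) : ℂ) else 0) • Periodic.qParam (1 : ℝ) τ ^ n)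
      ((theta N : ℍ → ℂ) τ) :=
    fun τ => hasSum_comp_heckeDiag delta1728 _ hm N τ
  refine ⟨if N ∣ n then z.coeff (n / N) else 0, ?_⟩
  rw [qHom_coeff_eq_of_hasSum (theta N) hc n]
  split_ifs <;> simp

/-- The ratio `‖Δ(τ)‖ / exp(-2π Im τ)` tends to one. -/
theorem tendsto_norm_discriminant_div :
    Tendsto (fun τ : ℍ => ‖discriminant τ‖ / Real.exp (-2 * π * τ.im)) atImInfty (𝓝 1) := by
  have h := tendsto_atImInfty_tprod_one_sub_eta_q_pow.norm
  rw [norm_one] at h
  refine h.congr fun τ => ?_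
  have hq : ‖Periodic.qParam 1 (τ : ℂ)‖ = Real.exp (-2 * π * τ.im) := by
    simp [Periodic.qParam, Complex.norm_exp]
  rw [discriminant_eq_q_prod, norm_mul, hq, mul_div_cancel_left₀ _ (Real.exp_pos _).ne']

theorem eq_of_eventually_exp_mul_eq {r s C : ℝ} {u v : ℝ → ℝ} (hC : C ≠ 0)
    (hu : Tendsto u atTop (𝓝 1)) (hv : Tendsto v atTop (𝓝 1))
    (h : ∀ᶠ y in atTop, C * (u y * Real.exp (r * y)) = v y * Real.exp (s * y)) : r = s := by
  have hlim : Tendsto (fun y => Real.exp ((r - s) * y)) atTop (𝓝 C⁻¹) := by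
    have h1 : Tendsto (fun y => v y / (C * u y)) atTop (𝓝 C⁻¹) := by
      have := hv.div (hu.const_mul C) (by simpa using hC)
      rwa [mul_one, one_div] at this
    refine h1.congr' ?_
    filter_upwards [h, hu.eventually_ne one_ne_zero] with y hy hu0
    rw [sub_mul, Real.exp_sub]
    have hpos := (Real.exp_pos (s * y)).ne'
    generalize Real.exp (r * y) = E1 at hy ⊢
    generalize Real.exp (s * y) = E2 at hy hpos ⊢
    field_simp
    linear_combination -hy
  rcases lt_trichotomy (r - s) 0 with hlt | heq | hgt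
  · have : Tendsto (fun y => Real.exp ((r - s) * y)) atTop (𝓝 0) :=
      Real.tendsto_exp_atBot.comp (tendsto_id.const_mul_atTop_of_neg hlt)
    exact absurd (tendsto_nhds_unique hlim this) (inv_ne_zero hC)
  · linarith
  · exact absurd hlim (not_tendsto_nhds_of_tendsto_atTop
      (Real.tendsto_exp_atTop.comp (tendsto_id.const_mul_atTop hgt)) _)

/-- The stabiliser of `θ` is exactly `Γ₀(N)`. -/
theorem mem_Gamma0_of_slash_thetaFun {N : ℕ} [NeZero N] {γ : SL(2, ℤ)}
    (h : thetaFun N ∣[(12 : ℤ)] γ = thetaFun N) : γ ∈ Gamma0 N := by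
  have hN : N ≠ 0 := NeZero.ne N
  have hNZ : (N : ℤ) ≠ 0 := by exact_mod_cast hN
  set a := γ 0 0 with ha
  set b := γ 0 1 with hb
  set c := γ 1 0 with hc
  set d := γ 1 1 with hd
  have hdet : a * d - b * c = 1 := by rw [ha, hb, hc, hd, ← Matrix.det_fin_two]; exact γ.2
  set g : ℕ := Int.gcd (N * a) c with hg
  have hgpos : 0 < g := by
    rw [hg, Int.gcd_pos_iff]
    by_contra hcon
    push Not at hcon
    rcases mul_eq_zero.1 hcon.1 with h1 | h1
    · exact hNZ h1
    · rw [h1, hcon.2] at hdet; simp at hdet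
  obtain ⟨a', ha'⟩ : (g : ℤ) ∣ N * a := Int.gcd_dvd_left _ _
  obtain ⟨c', hc'⟩ : (g : ℤ) ∣ c := Int.gcd_dvd_right _ _
  have hgne : (g : ℤ) ≠ 0 := by exact_mod_cast hgpos.ne'
  have hgnec : (g : ℂ) ≠ 0 := by exact_mod_cast hgpos.ne'
  set u := Int.gcdA (N * a) c
  set v := Int.gcdB (N * a) c
  have huv : a' * u + c' * v = 1 := by
    have h1 := Int.gcd_eq_gcd_ab (N * a) c
    rw [← hg] at h1
    exact mul_left_cancel₀ hgne (by linear_combination -h1 - u * ha' - v * hc')
  set B := u * (N * b) + v * d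
  set D := a' * d - c' * (N * b)
  have hD : (g : ℤ) * D = N := by
    simp only [D]; linear_combination (N : ℤ) * hdet - d * ha' + (N : ℤ) * b * hc'
  have hDpos : 0 < D := by
    rcases lt_trichotomy D 0 with h1 | h1 | h1
    · have : (g : ℤ) * D < 0 := mul_neg_of_pos_of_neg (by exact_mod_cast hgpos) h1
      omega
    · rw [h1, mul_zero] at hD; exact absurd hD.symm hNZ
    · exact h1
  let γ' : SL(2, ℤ) := ⟨!![a', -v; c', u], by rw [Matrix.det_fin_two_of]; linear_combination huv⟩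
  have hDc : (D : ℂ) ≠ 0 := by exact_mod_cast hDpos.ne'
  have e1 : (N : ℂ) * a = g * a' := by exact_mod_cast ha'
  have e2 : (c : ℂ) = g * c' := by exact_mod_cast hc'
  have e3 : (a' : ℂ) * u + c' * v = 1 := by exact_mod_cast huv
  -- the point `w = (g z + B) / D`
  have hw : ∀ z : ℍ, 0 < (((g : ℂ) * z + B) / D).im := by
    intro z
    have : (((g : ℂ) * z + B) / D) = ((((g : ℝ) / (D : ℝ)) : ℝ) : ℂ) * z + (B : ℂ) / D := by
      push_cast; field_simp
    rw [this, Complex.add_im, Complex.im_ofReal_mul,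
      show ((B : ℂ) / D).im = 0 by
        rw [show ((B : ℂ) / D) = (((B : ℝ) / D : ℝ) : ℂ) by push_cast; rfl, Complex.ofReal_im],
      add_zero]
    have hDr : (0 : ℝ) < D := by exact_mod_cast hDpos
    have hgr : (0 : ℝ) < g := by exact_mod_cast hgpos
    exact mul_pos (div_pos hgr hDr) z.im_pos
  have hmain : ∀ z : ℍ, discriminant (heckeDiagMatrix N • z)
      = ((D : ℂ) ^ 12)⁻¹ * discriminant ⟨_, hw z⟩ := by
    intro z
    have h0 : (c : ℂ) * z + d ≠ 0 := by
      have := denom_ne_zero (γ : GL (Fin 2) ℝ) z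
      simpa [denom, hc, hd] using this
    have hbot : (c' : ℂ) * (((g : ℂ) * z + B) / D) + u = ((c : ℂ) * z + d) / D := by
      rw [mul_div_assoc', div_add' _ _ _ hDc]
      congr 1
      simp only [B, D]
      push_cast
      linear_combination -(z : ℂ) * e2 + (d : ℂ) * e3
    have hpt : heckeDiagMatrix N • (γ • z) = γ' • (⟨_, hw z⟩ : ℍ) := by
      apply UpperHalfPlane.ext
      rw [coe_heckeDiagMatrix_smul hN, coe_specialLinearGroup_apply, coe_specialLinearGroup_apply]
      simp only [γ', algebraMap_int_eq, eq_intCast]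
      simp [← ha, ← hb, ← hc, ← hd]
      rw [hbot, mul_div_assoc', eq_div_iff (div_ne_zero h0 hDc), div_mul_div_comm,
        div_eq_iff (mul_ne_zero h0 hDc)]
      field_simp
      simp only [B, D]
      push_cast
      linear_combination ((c : ℂ) * z + d) * ((z : ℂ) * e1 - (N : ℂ) * b * e3)
    have h1 := congrFun h z
    rw [slash_action_eq'_iff] at h1
    simp only [thetaFun] at h1
    rw [hpt, delta1728_smul, delta1728_apply, delta1728_apply] at h1
    simp [γ', ← hc, ← hd] at h1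
    rw [hbot, div_pow] at h1
    have hcd : ((c : ℂ) * z + d) ^ 12 ≠ 0 := pow_ne_zero _ h0
    have hD12 : (D : ℂ) ^ 12 ≠ 0 := pow_ne_zero _ hDc
    rw [eq_comm, inv_mul_eq_iff_eq_mul₀ hD12]
    generalize discriminant (⟨_, hw z⟩ : ℍ) = X at h1 ⊢
    field_simp at h1
    linear_combination h1
  -- compare exponential rates along the imaginary axis
  have hpath : ∀ {F : ℝ → ℍ}, (Tendsto (fun y => (F y).im) atTop atTop) →
      Tendsto (fun y => ‖discriminant (F y)‖ / Real.exp (-2 * π * (F y).im)) atTop (𝓝 1) :=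
    fun hF => tendsto_norm_discriminant_div.comp (tendsto_comap_iff.2 hF)
  let Z : ℝ → ℍ := fun y => ⟨Complex.I * (max y 1 : ℝ), by simp⟩
  have hZ : Tendsto (fun y => (Z y).im) atTop atTop := by
    refine tendsto_id.congr' ?_
    filter_upwards [eventually_ge_atTop 1] with y hy
    simp [Z, ← UpperHalfPlane.coe_im, max_eq_left hy]
  have hWim : ∀ y, (⟨_, hw (Z y)⟩ : ℍ).im = (g : ℝ) / D * (Z y).im := by
    intro y
    rw [← UpperHalfPlane.coe_im, UpperHalfPlane.coe_mk,
      show (((g : ℂ) * (Z y) + B) / D) = ((((g : ℝ) / (D : ℝ)) : ℝ) : ℂ) * (Z y)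
        + (((B : ℝ) / D : ℝ) : ℂ) by push_cast; field_simp,
      Complex.add_im, Complex.im_ofReal_mul, Complex.ofReal_im, add_zero, UpperHalfPlane.coe_im]
  have hDr : (0 : ℝ) < D := by exact_mod_cast hDpos
  have hgr : (0 : ℝ) < g := by exact_mod_cast hgpos
  have hNr : (0 : ℝ) < N := by exact_mod_cast Nat.pos_of_ne_zero hN
  have h1 := hpath (F := fun y => heckeDiagMatrix N • Z y)
    ((hZ.const_mul_atTop hNr).congr fun y => (im_heckeDiagMatrix_smul N _).symm)
  have h2 := hpath (F := fun y => (⟨_, hw (Z y)⟩ : ℍ))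
    ((hZ.const_mul_atTop (div_pos hgr hDr)).congr fun y => (hWim y).symm)
  have hrate := eq_of_eventually_exp_mul_eq (r := -2 * π * ((g : ℝ) / D)) (s := -2 * π * N)
    (C := ((D : ℝ) ^ 12)⁻¹) (inv_ne_zero (pow_ne_zero _ hDr.ne')) h2 h1 (by
      filter_upwards [eventually_ge_atTop 1] with y hy
      have hy' : (Z y).im = y := by simp [Z, ← UpperHalfPlane.coe_im, max_eq_left hy]
      have e3' : Real.exp (-2 * π * (⟨_, hw (Z y)⟩ : ℍ).im) = Real.exp (-2 * π * ((g : ℝ) / D) * y) := by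
        rw [hWim, hy']; ring_nf
      have e4 : Real.exp (-2 * π * (heckeDiagMatrix N • Z y).im) = Real.exp (-2 * π * N * y) := by
        rw [im_heckeDiagMatrix_smul, hy']; ring_nf
      rw [e3', e4, div_mul_cancel₀ _ (Real.exp_pos _).ne', div_mul_cancel₀ _ (Real.exp_pos _).ne',
        hmain (Z y), norm_mul, norm_inv, norm_pow]
      congr 1
      rw [show (D : ℂ) = ((D : ℝ) : ℂ) by norm_cast, Complex.norm_real, Real.norm_of_nonneg hDr.le])
  have hgD : (g : ℤ) = N * D := by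
    have h3 : (g : ℝ) / D = N := mul_left_cancel₀ (by positivity : (-2 * π : ℝ) ≠ 0) hrate
    rw [div_eq_iff hDr.ne'] at h3
    exact_mod_cast h3
  have hD1 : D = 1 := by
    have : D * D = 1 := mul_left_cancel₀ hNZ (by linear_combination hD - D * hgD)
    rcases Int.mul_eq_one_iff_eq_one_or_neg_one.1 this with ⟨h4, -⟩ | ⟨h4, -⟩ <;> omega
  rw [Gamma0_mem, ← hc, ZMod.intCast_zmod_eq_zero_iff_dvd, hc', hgD, hD1, mul_one]
  exact Dvd.intro _ rfl

end Fermat.Agent.IntegralStructure
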